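import Fermat.Agent.LTG.W1.Ops
import Fermat.Agent.LTG.Real
import Fermat.Agent.LT.K.Pair
import Fermat.Agent.LT.K.Defs
import Fermat.Agent.Lib.Cyclotomic

/-!
# S47, part (c): depletion and the normalised eigenform

* `depletion` : `LTG.Real.Depletion`;
* `exists_eigenform` : a nonzero weight one form with character `χ_{-3}` and given Hecke relations
  at a set of primes gives a normalised simultaneous eigenform of the same level.
(helper51)
-/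

set_option autoImplicit false

noncomputable section

open UpperHalfPlane ModularForm ModularFormClass CongruenceSubgroup Matrix.SpecialLinearGroup
open scoped MatrixGroups ModularForm

namespace Fermat.Agent.LTG.W1

open Fermat.Agent Fermat.Agent.DS.Hecke1 Fermat.Agent.LT.K

/-- Depletion at a finite set of primes. -/
theorem depletion : Real.Depletion := by
  intro M hM f S hS
  have i1 : NeZero M := ⟨hM⟩
  obtain ⟨N, i2, g, -, h1, h2, h3⟩ := exists_strip1 f S hS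
  exact ⟨N, g, i2.out, h1, h2, h3⟩

theorem qCoeff_zero {N : ℕ} [NeZero N] (f : CuspForm (Gamma1 N) 1) : qCoeff ⇑f 0 = 0 :=
  CuspFormClass.qExpansion_coeff_zero f one_pos one_mem_strictPeriods

/-- The character `χ_{-3}` modulo `N`, `3 ∣ N`. -/
def chiMod {N : ℕ} (h3 : 3 ∣ N) : DirichletCharacter ℂ N :=
  DirichletCharacter.changeLevel h3
    ((quadraticChar (ZMod 3)).ringHomComp (Int.castRingHom ℂ) : DirichletCharacter ℂ 3)

theorem chi3_eq_quadraticChar (n : ℕ) : chi3 n = quadraticChar (ZMod 3) (n : ZMod 3) := by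
  rw [chi3, ← jacobiSym.legendreSym.to_jacobiSym, legendreSym]
  simp

theorem chiMod_apply {N : ℕ} (h3 : 3 ∣ N) {p : ℕ} (hp : p.Prime) (hpN : ¬ p ∣ N) :
    chiMod h3 (p : ZMod N) = ((chi3 p : ℤ) : ℂ) := by
  have hu : IsCoprime (p : ℤ) (N : ℤ) :=
    Nat.isCoprime_iff_coprime.mpr ((Nat.Prime.coprime_iff_not_dvd hp).mpr hpN)
  have h1 := DirichletCharacter.changeLevel_eq_cast_of_dvd'
    ((quadraticChar (ZMod 3)).ringHomComp (Int.castRingHom ℂ) : DirichletCharacter ℂ 3) h3 hu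
  rw [Int.cast_natCast, Int.cast_natCast] at h1
  rw [chiMod, h1, chi3_eq_quadraticChar]
  rfl

theorem chi3_eq_chiNegThree (n : ℕ) : chi3 n = EisensteinWeightOne.chiNegThree n := by
  rw [chi3, jacobiSym.mod_left, EisensteinWeightOne.chiNegThree]
  have h1 : ((n : ℤ) % ((3 : ℕ) : ℤ)) = ((n % 3 : ℕ) : ℤ) := by push_cast; rfl
  rw [h1]
  have h2 : n % 3 < 3 := Nat.mod_lt n (by norm_num)
  generalize n % 3 = r at h2 ⊢
  interval_cases r <;> norm_num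

/-- A nonzero simultaneous eigenvector of the `T_p`, `p ∤ N`, gives a normalised one. -/
theorem exists_normalized {N : ℕ} [NeZero N] (χ : ℕ → ℂ) (h : CuspForm (Gamma1 N) 1) (h0 : h ≠ 0)
    (c : ℕ → ℂ)
    (hc : ∀ p : ℕ, p.Prime → ¬ p ∣ N → ∀ n : ℕ,
      qCoeff ⇑h (p * n) + χ p * (if p ∣ n then qCoeff ⇑h (n / p) else 0) = c p * qCoeff ⇑h n) :
    ∃ g : CuspForm (Gamma1 N) 1, qCoeff ⇑g 1 = 1 ∧
      ∀ p : ℕ, p.Prime → ¬ p ∣ N → qCoeff ⇑g p = c p ∧ ∀ n : ℕ,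
        qCoeff ⇑g (p * n) + χ p * (if p ∣ n then qCoeff ⇑g (n / p) else 0) =
          qCoeff ⇑g p * qCoeff ⇑g n := by
  classical
  have hex : ∃ n, qCoeff ⇑h n ≠ 0 := by
    by_contra hcon
    push Not at hcon
    apply h0
    refine ext_qc fun n => ?_
    rw [qc_apply, hcon n, map_zero]
  obtain ⟨m, hm, hmin⟩ : ∃ m, qCoeff ⇑h m ≠ 0 ∧ ∀ j < m, qCoeff ⇑h j = 0 :=
    ⟨Nat.find hex, Nat.find_spec hex, fun j hj => not_not.mp (Nat.find_min hex hj)⟩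
  have hm0 : m ≠ 0 := by
    rintro rfl
    exact hm (qCoeff_zero h)
  have hmN : ∀ q : ℕ, q.Prime → q ∣ m → q ∣ N := by
    intro q hq hqm
    by_contra hqN
    obtain ⟨j, rfl⟩ := hqm
    have hj0 : 0 < j := Nat.pos_of_ne_zero fun hj => hm0 (by rw [hj, mul_zero])
    have hlt : j < q * j := by nlinarith [hq.two_le]
    apply hm
    have h1 := hc q hq hqN j
    rw [hmin j hlt, mul_zero] at h1
    rw [← h1]
    split_ifs with hd
    · rw [hmin _ (lt_of_le_of_lt (Nat.div_le_self j q) hlt), mul_zero, add_zero]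
    · rw [mul_zero, add_zero]
  obtain ⟨g0, hg0⟩ := exists_U h m hm0 hmN
  obtain ⟨g, hg⟩ : ∃ g : CuspForm (Gamma1 N) 1, ∀ n,
      qCoeff ⇑g n = (qCoeff ⇑h m)⁻¹ * qCoeff ⇑h (m * n) := by
    refine ⟨(qCoeff ⇑h m)⁻¹ • g0, fun n => ?_⟩
    rw [← qc_apply, map_smul, smul_eq_mul, hg0, qc_apply]
  have hg1 : qCoeff ⇑g 1 = 1 := by rw [hg, mul_one, inv_mul_cancel₀ hm]
  have hrel : ∀ p : ℕ, p.Prime → ¬ p ∣ N → ∀ n : ℕ,
      qCoeff ⇑g (p * n) + χ p * (if p ∣ n then qCoeff ⇑g (n / p) else 0) = c p * qCoeff ⇑g n := by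
    intro p hp hpN n
    have hpm : ¬ p ∣ m := fun h => hpN (hmN p hp h)
    have h1 := hc p hp hpN (m * n)
    rw [hg, hg, hg]
    have e1 : m * (p * n) = p * (m * n) := by ring
    have e2 : (p ∣ m * n) ↔ p ∣ n := by
      rw [hp.dvd_mul]
      exact or_iff_right hpm
    have e3 : (if p ∣ n then (qCoeff ⇑h m)⁻¹ * qCoeff ⇑h (m * (n / p)) else 0) =
        (qCoeff ⇑h m)⁻¹ * (if p ∣ m * n then qCoeff ⇑h (m * n / p) else 0) := by
      by_cases hd : p ∣ n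
      · rw [if_pos hd, if_pos (e2.mpr hd), Nat.mul_div_assoc m hd]
      · rw [if_neg hd, if_neg (fun h => hd (e2.mp h)), mul_zero]
    rw [e1, e3]
    linear_combination (qCoeff ⇑h m)⁻¹ * h1
  refine ⟨g, hg1, fun p hp hpN => ?_⟩
  have h2 : qCoeff ⇑g p = c p := by
    have h1 := hrel p hp hpN 1
    rw [mul_one, hg1, mul_one, if_neg (fun h => hp.one_lt.ne' (Nat.dvd_one.mp h)), mul_zero,
      add_zero] at h1
    exact h1
  exact ⟨h2, fun n => by rw [h2]; exact hrel p hp hpN n⟩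

/-- A nonzero weight one form with character `χ_{-3}` and given Hecke relations at a set `P` of
primes gives a normalised simultaneous eigenform of the same level with the same relations. -/
theorem exists_eigenform {N : ℕ} (hN : N ≠ 0) (h3 : 3 ∣ N) (f : CuspForm (Gamma1 N) 1) (hf : f ≠ 0)
    (hχ : ∀ γ ∈ Gamma0 N, (⇑f ∣[(1 : ℤ)] γ) = ((chi3 (γ 1 1) : ℤ) : ℂ) • ⇑f)
    (P : Set ℕ) (t : ℕ → ℂ)
    (hP : ∀ p ∈ P, p.Prime → ¬ p ∣ N → ∀ n : ℕ,
      qCoeff ⇑f (p * n) + ((chi3 p : ℤ) : ℂ) * (if p ∣ n then qCoeff ⇑f (n / p) else 0) =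
        t p * qCoeff ⇑f n) :
    ∃ g : CuspForm (Gamma1 N) 1, qCoeff ⇑g 1 = 1 ∧
      (∀ p ∈ P, p.Prime → ¬ p ∣ N → qCoeff ⇑g p = t p) ∧
      ∀ p : ℕ, p.Prime → ¬ p ∣ N → ∀ n : ℕ,
        qCoeff ⇑g (p * n) + ((chi3 p : ℤ) : ℂ) * (if p ∣ n then qCoeff ⇑g (n / p) else 0) =
          qCoeff ⇑g p * qCoeff ⇑g n := by
  have i1 : NeZero N := ⟨hN⟩
  obtain ⟨h, hh1, hh0, hh2, hh3⟩ := exists_eigenform_rel {p : GoodPrime N | (p : ℕ) ∈ P}
    (fun p => t p) (f := f) hχ hf (by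
      intro p hp
      rw [Tp_eq_smul_iff h3 hχ]
      intro n
      rw [← hP p hp p.2.1 p.2.2 n]
      simp)
  choose c hc using hh3
  obtain ⟨g, hg1, hg2⟩ := exists_normalized (fun p => ((chi3 p : ℤ) : ℂ)) h hh0
    (fun p => if hp : p.Prime ∧ ¬ p ∣ N then c ⟨p, hp⟩ else 0) (by
      intro p hp hpN n
      rw [dif_pos ⟨hp, hpN⟩]
      have h1 := (Tp_eq_smul_iff h3 hh1 hp hpN _).mp (hc ⟨p, hp, hpN⟩) n
      rw [← h1]
      simp)
  refine ⟨g, hg1, fun p hpP hp hpN => ?_, fun p hp hpN => (hg2 p hp hpN).2⟩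
  have h1 := (hg2 p hp hpN).1
  rw [dif_pos ⟨hp, hpN⟩] at h1
  rw [h1]
  have h2 := hh2 ⟨p, hp, hpN⟩ hpP
  rw [hc] at h2
  exact smul_left_injective ℂ hh0 h2

/-! ### From the data of `LTCore` -/

local notation "Γℚ" => (AlgebraicClosure ℚ ≃ₐ[ℚ] AlgebraicClosure ℚ)

theorem chi3_cast' (d : ℤ) : ((chi3 d : ℤ) : ZMod 3) = (d : ZMod 3) := by
  have h := three_dvd_sub_chi3 d
  have h2 : ((d - chi3 d : ℤ) : ZMod 3) = 0 := (ZMod.intCast_zmod_eq_zero_iff_dvd _ 3).mpr h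
  rw [Int.cast_sub, sub_eq_zero] at h2
  exact h2.symm

/-- `χ_{-3}(p) = 1` when Frobenius at `p` has determinant one. -/
theorem chi3_eq_one_of_det (ρ : Γℚ →* GL (Fin 2) (ZMod 3))
    (hdet : ∀ σ : Γℚ, Matrix.GeneralLinearGroup.det (ρ σ) =
      WeierstrassCurve.modThreeCyclotomicChar σ)
    {p : ℕ} (hp : p.Prime) (hp3 : p ≠ 3) (A : ValuationSubring (AlgebraicClosure ℚ))
    (hA : A.LiesOverPrime p) (σ : Γℚ) (hσ : A.IsFrobeniusAt σ p)
    (h1 : Matrix.GeneralLinearGroup.det (ρ σ) = 1) : chi3 p = 1 := by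
  have h2 : ((WeierstrassCurve.modThreeCyclotomicChar σ : (ZMod 3)ˣ) : ZMod 3) =
      ((p : ℕ) : ZMod 3) :=
    Cyclotomic.cyc_frobenius (n := 3) hp
      (fun h => hp3 ((Nat.prime_dvd_prime_iff_eq hp Nat.prime_three).mp h)) A hA hσ
  rw [← hdet, h1, Units.val_one] at h2
  have h3 := chi3_cast' p
  rw [Int.cast_natCast, ← h2] at h3
  rcases chi3_cases p with h | h | h
  · rw [h.2] at h3; exact absurd h3 (by decide)
  · exact h.2
  · rw [h.2] at h3; exact absurd h3 (by decide)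

/-- **Piece [7] (ii)**: from a nonzero weight one form with character `χ_{-3}` and the Hecke
relations at the primes of quaternion type to a normalised eigenform, with
`a_p = tr_Q(ρ(Frob_p))` at the primes of quaternion type. -/
theorem exists_eigenform_of_core (ρ : Γℚ →* GL (Fin 2) (ZMod 3))
    (hdet : ∀ σ : Γℚ, Matrix.GeneralLinearGroup.det (ρ σ) =
      WeierstrassCurve.modThreeCyclotomicChar σ)
    {N : ℕ} (f : CuspForm (Gamma1 N) 1) (T : Finset ℕ) (hN : N ≠ 0) (h3 : 3 ∣ N) (hf : f ≠ 0)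
    (hχ : ∀ γ ∈ Gamma0 N, (⇑f ∣[(1 : ℤ)] γ) = ((chi3 (γ 1 1) : ℤ) : ℂ) • ⇑f)
    (hrel : ∀ p : ℕ, p.Prime → p ∉ T →
      ∀ A : ValuationSubring (AlgebraicClosure ℚ), A.LiesOverPrime p →
        ∀ σ : Γℚ, A.IsFrobeniusAt σ p →
          Matrix.GeneralLinearGroup.det (ρ σ) = 1 → (ρ σ) ^ 4 = 1 →
          ∀ n : ℕ, qCoeff ⇑f (p * n) + (if p ∣ n then qCoeff ⇑f (n / p) else 0) =
            (trQ (ρ σ) : ℂ) * qCoeff ⇑f n) :
    ∃ g : CuspForm (Gamma1 N) 1, qCoeff ⇑g 1 = 1 ∧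
      (∀ p : ℕ, p.Prime → ¬ p ∣ N → ∀ n : ℕ,
        qCoeff ⇑g (p * n) + ((chi3 p : ℤ) : ℂ) * (if p ∣ n then qCoeff ⇑g (n / p) else 0) =
          qCoeff ⇑g p * qCoeff ⇑g n) ∧
      ∀ p : ℕ, p.Prime → ¬ p ∣ N → p ∉ T →
        ∀ A : ValuationSubring (AlgebraicClosure ℚ), A.LiesOverPrime p →
          ∀ σ : Γℚ, A.IsFrobeniusAt σ p →
            Matrix.GeneralLinearGroup.det (ρ σ) = 1 → (ρ σ) ^ 4 = 1 →
            qCoeff ⇑g p = (trQ (ρ σ) : ℂ) := by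
  classical
  have i1 : NeZero N := ⟨hN⟩
  obtain ⟨n₀, hn₀⟩ : ∃ n, qCoeff ⇑f n ≠ 0 := by
    by_contra hcon
    push Not at hcon
    apply hf
    refine ext_qc fun n => ?_
    rw [qc_apply, hcon n, map_zero]
  obtain ⟨P, hPdef⟩ : ∃ P : ℕ → Prop, P = fun p => p ∉ T ∧
    ∃ A : ValuationSubring (AlgebraicClosure ℚ), A.LiesOverPrime p ∧
      ∃ σ : Γℚ, A.IsFrobeniusAt σ p ∧
        Matrix.GeneralLinearGroup.det (ρ σ) = 1 ∧ (ρ σ) ^ 4 = 1 := ⟨_, rfl⟩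
  have ht : ∀ p : ℕ, ∃ t : ℂ, p.Prime → P p → ∀ n : ℕ,
      qCoeff ⇑f (p * n) + (if p ∣ n then qCoeff ⇑f (n / p) else 0) = t * qCoeff ⇑f n := by
    intro p
    by_cases hp : p.Prime ∧ P p
    · rw [hPdef] at hp
      obtain ⟨hp, hpT, A, hA, σ, hσ, h1, h2⟩ := hp
      exact ⟨_, fun _ _ => hrel p hp hpT A hA σ hσ h1 h2⟩
    · exact ⟨0, fun h1 h2 => absurd ⟨h1, h2⟩ hp⟩
  choose t ht using ht
  obtain ⟨g, hg1, hg2, hg3⟩ := exists_eigenform hN h3 f hf hχ {p | P p} t (by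
    intro p hpP hp hpN n
    have hpP' : P p := hpP
    rw [hPdef] at hpP'
    obtain ⟨hpT, A, hA, σ, hσ, h1, h2⟩ := hpP'
    have hp3 : p ≠ 3 := fun h => hpN (h ▸ h3)
    rw [chi3_eq_one_of_det ρ hdet hp hp3 A hA σ hσ h1, Int.cast_one, one_mul]
    exact ht p hp hpP n)
  refine ⟨g, hg1, hg3, fun p hp hpN hpT A hA σ hσ h1 h2 => ?_⟩
  have hpP : P p := by
    rw [hPdef]
    exact ⟨hpT, A, hA, σ, hσ, h1, h2⟩
  rw [hg2 p hpP hp hpN]
  have e1 := ht p hp hpP n₀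
  rw [hrel p hp hpT A hA σ hσ h1 h2 n₀] at e1
  exact (mul_right_cancel₀ hn₀ e1).symm

end Fermat.Agent.LTG.W1
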