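import Fermat.Agent.LTG.W1.Main

/-!
# S47: multiplication of the coefficients by a periodic function, any weight, `Γ₁`

(helper51)
-/

set_option autoImplicit false

noncomputable section

open UpperHalfPlane ModularForm ModularFormClass CongruenceSubgroup Matrix.SpecialLinearGroup
open scoped MatrixGroups ModularForm

namespace Fermat.Agent.LTG.W1

open Fermat.Agent Fermat.Agent.DS.Hecke1 Fermat.Agent.S46Lib Fermat.Agent.LT.K

variable {k : ℤ}

open scoped ZMod in
/-- Fourier inversion on `ZMod q`. -/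
theorem exists_fourier (q : ℕ) [NeZero q] (w : ZMod q → ℂ) :
    ∃ c : ZMod q → ℂ, ∀ n : ℕ,
      ∑ u : ZMod q, c u * Complex.exp (2 * Real.pi * Complex.I * (((u.val : ℤ) : ℂ) * n / q)) =
        w (n : ZMod q) := by
  refine ⟨fun u => (q : ℂ)⁻¹ * ZMod.dft w u, fun n => ?_⟩
  have h1 : (ZMod.dft.symm (ZMod.dft w)) (n : ZMod q) = w (n : ZMod q) := by
    rw [LinearEquiv.symm_apply_apply]
  rw [← h1, ZMod.invDFT_apply, smul_eq_mul, Finset.mul_sum]
  refine Finset.sum_congr rfl fun u _ => ?_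
  rw [smul_eq_mul]
  have h2 : (u * (n : ZMod q)) = (((u.val * n : ℕ) : ℤ) : ZMod q) := by
    push_cast
    rw [ZMod.natCast_zmod_val]
  rw [h2, ZMod.stdAddChar_coe]
  have h3 : 2 * Real.pi * Complex.I * (((u.val : ℤ) : ℂ) * n / q) =
      2 * Real.pi * Complex.I * (((u.val * n : ℕ) : ℤ) : ℂ) / q := by
    push_cast
    ring
  rw [h3]
  ring

/-- **Multiplication of the coefficients by a periodic function.** -/
theorem exists_periodic {M N q : ℕ} [NeZero M] [NeZero N] [NeZero q] (hq2 : q ^ 2 ∣ N)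
    (hMN : M * q ∣ N) (w : ZMod q → ℂ) (f : CuspForm (Gamma1 M) k) :
    ∃ g : CuspForm (Gamma1 N) k, ∀ n : ℕ, qc N k n g = w (n : ZMod q) * qc M k n f := by
  obtain ⟨c, hc⟩ := exists_fourier q w
  refine ⟨∑ u : ZMod q, c u • trForm (NeZero.ne q) hq2 hMN (u.val : ℤ) f, fun n => ?_⟩
  rw [map_sum, ← hc n, Finset.sum_mul]
  refine Finset.sum_congr rfl fun u _ => ?_
  rw [map_smul, qc_trForm, smul_eq_mul]
  ring

theorem periodic : Real.Periodic := by
  intro M q i1 i2 w f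
  have i3 : NeZero (q ^ 2 * M) := ⟨mul_ne_zero (pow_ne_zero 2 (NeZero.ne q)) (NeZero.ne M)⟩
  obtain ⟨g, hg⟩ := exists_periodic (N := q ^ 2 * M) (Dvd.intro _ rfl)
    (⟨q, by ring⟩ : M * q ∣ q ^ 2 * M) w f
  exact ⟨g, hg⟩

end Fermat.Agent.LTG.W1
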