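import Fermat.Agent.S46Lib.Strip
import Fermat.Agent.DS.Hecke1Ops

/-!
# S47, part (c): operators on `S_k(Γ₁(M))`

* `trForm` : `f(z + u/q)`, level `N` with `q² ∣ N`, `M q ∣ N`;
* `exists_strip1` : removing the coefficients at the primes of a finite set;
* `exists_twist1` : the twist by `χ_{-3}`;
* `U1` : the operator `U_q`, `q ∣ M`, and `exists_U`.
(helper51)
-/

set_option autoImplicit false

noncomputable section

open UpperHalfPlane ModularForm ModularFormClass CongruenceSubgroup Matrix.SpecialLinearGroup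
open scoped MatrixGroups ModularForm

namespace Fermat.Agent.LTG.W1

open Fermat.Agent Fermat.Agent.DS.Hecke1 Fermat.Agent.S46Lib Fermat.Agent.LT.K

variable {M N q : ℕ} {k : ℤ}

theorem gamma1_entries {γ : SL(2, ℤ)} (hγ : γ ∈ Gamma1 N) :
    ∃ a1 c1 d1 : ℤ, γ 0 0 = 1 + N * a1 ∧ γ 1 0 = N * c1 ∧ γ 1 1 = 1 + N * d1 := by
  rw [Gamma1_mem] at hγ
  obtain ⟨h0, h1, h2⟩ := hγ
  have e0 : ((γ 0 0 - 1 : ℤ) : ZMod N) = 0 := by push_cast; rw [h0, sub_self]
  have e1 : ((γ 1 1 - 1 : ℤ) : ZMod N) = 0 := by push_cast; rw [h1, sub_self]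
  obtain ⟨a1, ha⟩ := (ZMod.intCast_zmod_eq_zero_iff_dvd _ _).1 e0
  obtain ⟨c1, hc⟩ := (ZMod.intCast_zmod_eq_zero_iff_dvd _ _).1 h2
  obtain ⟨d1, hd⟩ := (ZMod.intCast_zmod_eq_zero_iff_dvd _ _).1 e1
  exact ⟨a1, c1, d1, by linarith, hc, by linarith⟩

theorem mem_gamma1_of {δ : SL(2, ℤ)} {x y z : ℤ} (h0 : δ 0 0 = 1 + M * x) (h1 : δ 1 0 = M * y)
    (h2 : δ 1 1 = 1 + M * z) : δ ∈ Gamma1 M := by
  rw [Gamma1_mem, h0, h1, h2]
  push_cast
  simp

theorem exists_conj_tr1 (hq : q ≠ 0) (hq2 : q ^ 2 ∣ N) (hMN : M * q ∣ N) (u : ℤ) {γ : SL(2, ℤ)}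
    (hγ : γ ∈ Gamma1 N) :
    ∃ δ : SL(2, ℤ), δ ∈ Gamma1 M ∧
      trR q u * (mapGL ℝ γ : GL (Fin 2) ℝ) = mapGL ℝ δ * trR q u := by
  have hqR : (q : ℝ) ≠ 0 := by exact_mod_cast hq
  obtain ⟨a1, c1, d1, ha, hc, hd⟩ := gamma1_entries hγ
  obtain ⟨n1, hn1⟩ := hq2
  obtain ⟨m1, hm1⟩ : M ∣ q * n1 := by
    have : M * q ∣ (q * n1) * q := by
      rw [hn1] at hMN
      refine hMN.trans (dvd_of_eq ?_)
      ring
    exact Nat.dvd_of_mul_dvd_mul_right (Nat.pos_of_ne_zero hq) this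
  have hN : (N : ℤ) = q * (M * m1) := by
    have : N = q * (M * m1) := by rw [hn1, ← hm1]; ring
    exact_mod_cast this
  have hK : ((M : ℤ) * m1) = q * n1 := by exact_mod_cast hm1.symm
  have hdet := det_eq γ
  obtain ⟨b, hb⟩ : ∃ b : ℤ, b = γ 0 1 := ⟨_, rfl⟩
  rw [← hb, ha, hc, hd] at hdet
  set K : ℤ := (M : ℤ) * m1 with hKd
  rw [hN] at hdet ha hc hd
  have hdetA : (!![1 + q * K * a1 + u * K * c1, b + u * K * (d1 - a1) - u ^ 2 * n1 * c1;
      q * K * c1, 1 + q * K * d1 - u * K * c1] : Matrix (Fin 2) (Fin 2) ℤ).det = 1 := by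
    rw [Matrix.det_fin_two_of]
    linear_combination hdet + (u ^ 2 * K * c1 ^ 2) * (-hK)
  obtain ⟨δ, h00, h01, h10, h11⟩ : ∃ δ : SL(2, ℤ), δ 0 0 = 1 + q * K * a1 + u * K * c1 ∧
      δ 0 1 = b + u * K * (d1 - a1) - u ^ 2 * n1 * c1 ∧ δ 1 0 = q * K * c1 ∧
      δ 1 1 = 1 + q * K * d1 - u * K * c1 :=
    ⟨⟨!![1 + q * K * a1 + u * K * c1, b + u * K * (d1 - a1) - u ^ 2 * n1 * c1;
      q * K * c1, 1 + q * K * d1 - u * K * c1], hdetA⟩, rfl, rfl, rfl, rfl⟩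
  refine ⟨δ, mem_gamma1_of (x := m1 * (q * a1 + u * c1)) (y := m1 * (q * c1))
    (z := m1 * (q * d1 - u * c1)) ?_ ?_ ?_, ?_⟩
  · rw [h00, hKd]; ring
  · rw [h10, hKd]; ring
  · rw [h11, hKd]; ring
  · have hK' := congrArg (Int.cast : ℤ → ℝ) hK
    push_cast at hK'
    have hγ' : ((mapGL ℝ γ : GL (Fin 2) ℝ) : Matrix (Fin 2) (Fin 2) ℝ) =
        !![1 + (q : ℝ) * K * a1, (b : ℝ); (q : ℝ) * K * c1, 1 + (q : ℝ) * K * d1] := by
      ext i j
      fin_cases i <;> fin_cases j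
      · simp [ha]
      · simp [hb]
      · simp [hc]
      · simp [hd]
    have hδ' : ((mapGL ℝ δ : GL (Fin 2) ℝ) : Matrix (Fin 2) (Fin 2) ℝ) =
        !![1 + (q : ℝ) * K * a1 + u * K * c1, (b : ℝ) + u * K * (d1 - a1) - u ^ 2 * n1 * c1;
          (q : ℝ) * K * c1, 1 + (q : ℝ) * K * d1 - u * K * c1] := by
      ext i j
      fin_cases i <;> fin_cases j
      · simp [h00]
      · simp [h01]
      · simp [h10]
      · simp [h11]
    apply Units.ext
    rw [Units.val_mul, Units.val_mul, trR_val, hγ', hδ', Matrix.mul_fin_two, Matrix.mul_fin_two]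
    congr 1
    funext i j
    fin_cases i <;> fin_cases j
    · simp; field_simp
    · simp
      field_simp
      linear_combination (-(u : ℝ) ^ 2 * c1) * hK'
    · simp
    · simp; field_simp; ring

section forms

variable [NeZero M] [NeZero N]

/-- `f(z + u/q)` -/
def trForm (hq : q ≠ 0) (hq2 : q ^ 2 ∣ N) (hMN : M * q ∣ N) (u : ℤ) (f : CuspForm (Gamma1 M) k) :
    CuspForm (Gamma1 N) k where
  toFun := ⇑f ∣[k] trR q u
  slash_action_eq' := by
    rintro _ ⟨γ, hγ, rfl⟩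
    obtain ⟨δ, hδ, h1⟩ := exists_conj_tr1 hq hq2 hMN u hγ
    rw [← SlashAction.slash_mul, h1, SlashAction.slash_mul]
    congr 1
    exact SlashInvariantFormClass.slash_action_eq f _ ⟨δ, hδ, rfl⟩
  holo' := (CuspFormClass.holo f).slash k _
  zero_at_cusps' := fun {c} hc => by
    refine P2MW.S_CuspFormClass_isZeroAt_heckeT.ModularForm.S06W2.isZeroAt_slash_ratCast f
      (trQ q u) ?_
    rw [Subgroup.IsArithmetic.isCusp_iff_isCusp_SL2Z] at hc ⊢
    exact hc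

theorem qc_trForm (hq : q ≠ 0) (hq2 : q ^ 2 ∣ N) (hMN : M * q ∣ N) (u : ℤ)
    (f : CuspForm (Gamma1 M) k) (n : ℕ) :
    qc N k n (trForm hq hq2 hMN u f) =
      Complex.exp (2 * Real.pi * Complex.I * (u * n / q)) * qc M k n f := by
  rw [qc_apply, qc_apply]
  refine qCoeff_of_hasSum (c := fun n : ℕ => Complex.exp (2 * Real.pi * Complex.I * (u * n / q)) *
    qCoeff ⇑f n) (good _) (fun τ => ?_) n
  have h1 := ModularForm.hasSum_qExpansion (h := 1) f one_pos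
    one_mem_strictPeriods (((u : ℝ) / q) +ᵥ τ)
  have h2 : (⇑(trForm hq hq2 hMN u f) : ℍ → ℂ) τ = f (((u : ℝ) / q) +ᵥ τ) := slash_trR q _ k u τ
  rw [h2]
  have h3 : (fun n : ℕ => Complex.exp (2 * Real.pi * Complex.I * (u * n / q)) * qCoeff ⇑f n *
      Complex.exp (2 * Real.pi * Complex.I * n * τ)) = fun n : ℕ => (qExpansion 1 ⇑f).coeff n *
        Function.Periodic.qParam 1 ((((u : ℝ) / q) +ᵥ τ : ℍ) : ℂ) ^ n := by
    funext n
    rw [qParam_pow, mul_right_comm, ← Complex.exp_add, mul_comm, UpperHalfPlane.coe_vadd]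
    congr 1
    congr 1
    push_cast
    ring
  rw [h3]
  exact h1

/-- The inclusion of levels. -/
theorem exists_incl1 (hMN : M ∣ N) (f : CuspForm (Gamma1 M) k) :
    ∃ g : CuspForm (Gamma1 N) k, ∀ n, qc N k n g = qc M k n f := by
  refine ⟨trForm (q := 1) one_ne_zero (by rw [one_pow]; exact one_dvd _) (by rwa [mul_one]) 0 f,
    fun n => ?_⟩
  rw [qc_trForm]
  simp

/-- Removing the coefficients divisible by `q`. -/
theorem exists_stripOne (hq : q ≠ 0) (hq2 : q ^ 2 ∣ N) (hMN : M * q ∣ N)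
    (f : CuspForm (Gamma1 M) k) :
    ∃ g : CuspForm (Gamma1 N) k, ∀ n, qc N k n g = if q ∣ n then 0 else qc M k n f := by
  have i2 : NeZero q := ⟨hq⟩
  have hqC : (q : ℂ) ≠ 0 := by exact_mod_cast hq
  obtain ⟨f', hf'⟩ := exists_incl1 ((Dvd.intro _ rfl).trans hMN : M ∣ N) f
  refine ⟨f' - (q : ℂ)⁻¹ • ∑ u : ZMod q, trForm hq hq2 hMN (u.val : ℤ) f, fun n => ?_⟩
  rw [map_sub, map_smul, map_sum, hf', Finset.sum_congr rfl fun u _ => qc_trForm hq hq2 hMN _ f n,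
    ← Finset.sum_mul, sum_exp, smul_eq_mul]
  split_ifs
  · field_simp; ring
  · ring

/-- The twist by `χ_{-3}`. -/
theorem exists_twist1 (h9 : 3 ^ 2 ∣ N) (hMN : M * 3 ∣ N) (f : CuspForm (Gamma1 M) k) :
    ∃ g : CuspForm (Gamma1 N) k, ∀ n, qc N k n g = ((chi3 n : ℤ) : ℂ) * qc M k n f := by
  refine ⟨gaussThree⁻¹ • (trForm three_ne_zero h9 hMN 1 f - trForm three_ne_zero h9 hMN (-1) f),
    fun n => ?_⟩
  rw [map_smul, map_sub, qc_trForm, qc_trForm, smul_eq_mul, ← sub_mul]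
  have h1 := gauss_eq n
  have h2 := gaussThree_ne_zero
  have h3 : ((3 : ℕ) : ℂ) = 3 := by norm_num
  rw [h3, h1]
  field_simp

end forms

/-- Removing the coefficients at a finite set of primes. -/
theorem exists_strip1 {M : ℕ} [NeZero M] (f : CuspForm (Gamma1 M) k) (S : Finset ℕ)
    (hS : ∀ q ∈ S, q.Prime) :
    ∃ (N : ℕ) (_ : NeZero N) (g : CuspForm (Gamma1 N) k), M ∣ N ∧ (∀ q ∈ S, q ∣ N) ∧
      (∀ q : ℕ, q.Prime → q ∣ N → q ∣ M ∨ q ∈ S) ∧
      ∀ n, qc N k n g = if ∀ q ∈ S, ¬ q ∣ n then qc M k n f else 0 := by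
  classical
  induction S using Finset.induction_on with
  | empty => exact ⟨M, inferInstance, f, dvd_rfl, by simp, fun q _ h => Or.inl h, by simp⟩
  | insert q S hqS ih =>
    obtain ⟨N, i1, g, hMN, h1, h2, h4⟩ := ih fun p hp => hS p (Finset.mem_insert_of_mem hp)
    have hq : q.Prime := hS q (Finset.mem_insert_self _ _)
    have i3 : NeZero (N * q ^ 2) := ⟨mul_ne_zero (NeZero.ne N) (pow_ne_zero 2 hq.ne_zero)⟩
    have hNN : N * q ∣ N * q ^ 2 := mul_dvd_mul_left N (dvd_pow_self q (by norm_num))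
    have hqN : q ^ 2 ∣ N * q ^ 2 := Dvd.intro_left _ rfl
    have hNN' : N ∣ N * q ^ 2 := Dvd.intro _ rfl
    obtain ⟨g', hg'⟩ := exists_stripOne hq.ne_zero hqN hNN g
    refine ⟨N * q ^ 2, i3, g', hMN.trans hNN', ?_, ?_, ?_⟩
    · intro p hp
      rcases Finset.mem_insert.mp hp with rfl | hp
      · exact (dvd_pow_self p (by norm_num)).trans hqN
      · exact (h1 p hp).trans hNN'
    · intro p hp hpN
      rcases (Nat.Prime.dvd_mul hp).mp hpN with h6 | h6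
      · rcases h2 p hp h6 with h7 | h7
        · exact Or.inl h7
        · exact Or.inr (Finset.mem_insert_of_mem h7)
      · right
        have h7 := (Nat.prime_dvd_prime_iff_eq hp hq).mp (hp.dvd_of_dvd_pow h6)
        rw [h7]
        exact Finset.mem_insert_self _ _
    · intro n
      rw [hg', h4]
      by_cases hqn : q ∣ n
      · rw [if_pos hqn, if_neg]
        intro h
        exact h q (Finset.mem_insert_self _ _) hqn
      · rw [if_neg hqn]
        simp only [Finset.forall_mem_insert, hqn, not_false_eq_true, true_and]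

/-! ### The operator `U_q` -/

theorem exists_conj_U (hq : q ≠ 0) (hqM : q ∣ M) (j : ℕ) {γ : SL(2, ℤ)} (hγ : γ ∈ Gamma1 M) (i : ℕ)
    (hi : (q : ℤ) ∣ (j : ℤ) + γ 0 1 - i) :
    ∃ δ : SL(2, ℤ), δ ∈ Gamma1 M ∧
      heckeMatrix q j * (mapGL ℝ γ : GL (Fin 2) ℝ) = mapGL ℝ δ * heckeMatrix q i := by
  have hqR : (q : ℝ) ≠ 0 := by exact_mod_cast hq
  obtain ⟨a1, c1, d1, ha, hc, hd⟩ := gamma1_entries hγ
  obtain ⟨m, hm⟩ := hqM
  obtain ⟨t, ht⟩ := hi
  have hdet := det_eq γ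
  obtain ⟨b, hb⟩ : ∃ b : ℤ, b = γ 0 1 := ⟨_, rfl⟩
  have hM : (M : ℤ) = q * m := by exact_mod_cast hm
  rw [← hb] at ht
  rw [← hb, ha, hc, hd] at hdet
  have hi' : (i : ℤ) = j + b - q * t := by linarith
  -- the upper right entry
  set β : ℤ := m * (j * d1 - (a1 + j * c1) * i) + t with hβ
  have E1 : (q : ℤ) * β = b + j * (1 + M * d1) - (1 + M * a1 + j * (M * c1)) * i := by
    rw [hβ]
    linear_combination (-(j * d1 - (a1 + j * c1) * i)) * hM - ht
  have hdetA : (!![1 + M * a1 + j * (M * c1), β; q * (M * c1), 1 + M * d1 - M * c1 * i] :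
      Matrix (Fin 2) (Fin 2) ℤ).det = 1 := by
    rw [Matrix.det_fin_two_of]
    linear_combination hdet - M * c1 * E1
  obtain ⟨δ, h00, h01, h10, h11⟩ : ∃ δ : SL(2, ℤ), δ 0 0 = 1 + M * a1 + j * (M * c1) ∧
      δ 0 1 = β ∧ δ 1 0 = q * (M * c1) ∧ δ 1 1 = 1 + M * d1 - M * c1 * i :=
    ⟨⟨!![1 + M * a1 + j * (M * c1), β; q * (M * c1), 1 + M * d1 - M * c1 * i], hdetA⟩,
      rfl, rfl, rfl, rfl⟩
  refine ⟨δ, mem_gamma1_of (x := a1 + j * c1) (y := q * c1) (z := d1 - c1 * i) ?_ ?_ ?_, ?_⟩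
  · rw [h00]; ring
  · rw [h10]; ring
  · rw [h11]; ring
  · have E1' := congrArg (Int.cast : ℤ → ℝ) E1
    push_cast at E1'
    have hγ' : ((mapGL ℝ γ : GL (Fin 2) ℝ) : Matrix (Fin 2) (Fin 2) ℝ) =
        !![1 + (M : ℝ) * a1, (b : ℝ); (M : ℝ) * c1, 1 + (M : ℝ) * d1] := by
      ext i j
      fin_cases i <;> fin_cases j
      · simp [ha]
      · simp [hb]
      · simp [hc]
      · simp [hd]
    have hδ' : ((mapGL ℝ δ : GL (Fin 2) ℝ) : Matrix (Fin 2) (Fin 2) ℝ) =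
        !![1 + (M : ℝ) * a1 + j * (M * c1), (β : ℝ); (q : ℝ) * (M * c1),
          1 + (M : ℝ) * d1 - M * c1 * i] := by
      ext i j
      fin_cases i <;> fin_cases j
      · simp [h00]
      · simp [h01]
      · simp [h10]
      · simp [h11]
    apply Units.ext
    rw [Units.val_mul, Units.val_mul, val_heckeMatrix hq, val_heckeMatrix hq, hγ', hδ',
      Matrix.mul_fin_two, Matrix.mul_fin_two]
    congr 1
    funext x y
    fin_cases x <;> fin_cases y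
    · simp
    · simp
      linear_combination -E1'
    · simp
    · simp; ring

theorem slash_heckeU_eq (hq : q ≠ 0) (hqM : q ∣ M) (f : CuspForm (Gamma1 M) k) {γ : SL(2, ℤ)}
    (hγ : γ ∈ Gamma1 M) :
    (heckeU k q ⇑f ∣[k] (mapGL ℝ γ : GL (Fin 2) ℝ)) = heckeU k q ⇑f := by
  have i2 : NeZero q := ⟨hq⟩
  have hsum : heckeU k q ⇑f = ∑ u : ZMod q, ⇑f ∣[k] heckeMatrix q u.val := by
    rw [heckeU_def]
    exact P2MW.S_ModularForm_heckeT_slash_eq_self_of_mem_Gamma0.ModularForm.HeckeSlashInvariance.sum_range_eq_sum_zmod _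
  rw [hsum]
  have hsl : ∀ (F : ZMod q → ℍ → ℂ), ((∑ u : ZMod q, F u) ∣[k] (mapGL ℝ γ : GL (Fin 2) ℝ)) =
      ∑ u : ZMod q, (F u ∣[k] (mapGL ℝ γ : GL (Fin 2) ℝ)) := by
    intro F
    classical
    induction (Finset.univ : Finset (ZMod q)) using Finset.induction_on with
    | empty => simp
    | insert a s ha ih => rw [Finset.sum_insert ha, Finset.sum_insert ha, SlashAction.add_slash, ih]
  rw [hsl]
  refine Fintype.sum_equiv (Equiv.addRight ((γ 0 1 : ℤ) : ZMod q)) _ _ fun u => ?_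
  obtain ⟨δ, hδ, h1⟩ := exists_conj_U hq hqM u.val hγ (u + ((γ 0 1 : ℤ) : ZMod q)).val (by
    rw [← ZMod.intCast_zmod_eq_zero_iff_dvd]
    push_cast
    simp)
  rw [← SlashAction.slash_mul, h1, SlashAction.slash_mul]
  have h2 : (⇑f ∣[k] (mapGL ℝ δ : GL (Fin 2) ℝ)) = ⇑f :=
    SlashInvariantFormClass.slash_action_eq f _ ⟨δ, hδ, rfl⟩
  rw [h2]
  rfl

/-- The operator `U_q`, `q ∣ M`. -/
def U1 [NeZero M] (hq : q ≠ 0) (hqM : q ∣ M) (f : CuspForm (Gamma1 M) k) :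
    CuspForm (Gamma1 M) k where
  toFun := heckeU k q ⇑f
  slash_action_eq' := by
    rintro _ ⟨γ, hγ, rfl⟩
    exact slash_heckeU_eq hq hqM f hγ
  holo' := mdifferentiable_heckeU (CuspFormClass.holo f) k q
  zero_at_cusps' := fun {c} hc => CuspFormClass.isZeroAt_heckeU f q hc

theorem qc_U1 [NeZero M] (hq : q ≠ 0) (hqM : q ∣ M) (f : CuspForm (Gamma1 M) k) (n : ℕ) :
    qc M k n (U1 hq hqM f) = qc M k (n * q) f := (good f).qCoeff_heckeU k hq n

/-- `U_d` for `d` with all its prime factors dividing `M`. -/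
theorem exists_U {M : ℕ} [NeZero M] (f : CuspForm (Gamma1 M) k) (d : ℕ) (hd : d ≠ 0)
    (hdM : ∀ q : ℕ, q.Prime → q ∣ d → q ∣ M) :
    ∃ g : CuspForm (Gamma1 M) k, ∀ n, qc M k n g = qc M k (d * n) f := by
  induction d using Nat.recOnMul generalizing f with
  | zero => exact absurd rfl hd
  | one => exact ⟨f, fun n => by rw [one_mul]⟩
  | prime p hp =>
    exact ⟨U1 hp.ne_zero (hdM p hp dvd_rfl) f, fun n => by rw [qc_U1, mul_comm]⟩
  | mul a b iha ihb =>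
    have ha : a ≠ 0 := fun h => hd (by rw [h, zero_mul])
    have hb : b ≠ 0 := fun h => hd (by rw [h, mul_zero])
    obtain ⟨g1, hg1⟩ := iha f ha fun q hq h => hdM q hq (h.mul_right b)
    obtain ⟨g, hg⟩ := ihb g1 hb fun q hq h => hdM q hq (h.mul_left a)
    exact ⟨g, fun n => by rw [hg, hg1, mul_assoc]⟩

end Fermat.Agent.LTG.W1
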